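/-
helper73, programme MW (S17), brick HM-2a: heights attached to generating families, abstract layer.

Setting (pure algebra): `K/k` a field extension (`K` = function field of a variety over `k = Qbar`),
an *evaluation point* `p : EvalPt k K` = a `k`-subalgebra `p.O ≤ K` (the local ring of a closed
point) with a `k`-algebra map `p.ev : p.O → k` (evaluation at the point).
A family `s : ι → K` is *generated by `s i` at `p`* (`GenAt p s i`) if `s i ≠ 0` and all
`s j / s i ∈ p.O`; then the value vector `(ev (s j / s i))_j` is a point of projective space and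
`famHeight p s` is its absolute logarithmic height (`MW/AbsHeightDef10`).  It is independent of the
generator, invariant under scaling the family by a nonzero function, monotone under passing to a
generating subfamily, and compatible with pull-back along field maps.
-/
import Fermat.Agent.MW.AbsHeightDef10

set_option autoImplicit false

namespace Fermat.Agent.MW.HM73

open Fermat.Agent.MW.AbsHeightDef10

/-- An evaluation point of the field extension `K/k`: a `k`-subalgebra with a `k`-point. -/
structure EvalPt (k K : Type*) [Field k] [Field K] [Algebra k K] where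
  /-- the local ring -/
  O : Subalgebra k K
  /-- evaluation at the point -/
  ev : O →ₐ[k] k

variable {k K : Type*} [Field k] [Field K] [Algebra k K] {ι : Type*}

/-- `s i` generates the family `s` at the point `p`. -/
def GenAt (p : EvalPt k K) (s : ι → K) (i : ι) : Prop :=
  s i ≠ 0 ∧ ∀ j, s j / s i ∈ p.O

/-- The family `s` is generated by one of its members at `p`. -/
def IsGenAt (p : EvalPt k K) (s : ι → K) : Prop := ∃ i, GenAt p s i

/-- The vector of values of `s` at `p`, normalised by the generator `s i`. -/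
def valueVec (p : EvalPt k K) (s : ι → K) (i : ι) (h : GenAt p s i) : ι → k :=
  fun j => p.ev ⟨s j / s i, h.2 j⟩

theorem valueVec_self (p : EvalPt k K) (s : ι → K) (i : ι) (h : GenAt p s i) :
    valueVec p s i h i = 1 := by
  unfold valueVec
  have : (⟨s i / s i, h.2 i⟩ : p.O) = 1 := Subtype.ext (div_self h.1)
  rw [this, map_one]

theorem valueVec_ne_zero (p : EvalPt k K) (s : ι → K) (i : ι) (h : GenAt p s i) :
    valueVec p s i h ≠ 0 := fun h0 => by
  have := congrFun h0 i
  rw [valueVec_self] at this
  exact one_ne_zero this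

/-- The transition factor between two generators is a unit. -/
theorem ev_div_mul_ev_div (p : EvalPt k K) (s : ι → K) (i i' : ι) (h : GenAt p s i)
    (h' : GenAt p s i') :
    p.ev ⟨s i' / s i, h.2 i'⟩ * p.ev ⟨s i / s i', h'.2 i⟩ = 1 := by
  rw [← map_mul]
  have : (⟨s i' / s i, h.2 i'⟩ : p.O) * ⟨s i / s i', h'.2 i⟩ = 1 := by
    apply Subtype.ext
    show s i' / s i * (s i / s i') = 1
    have h1 := h.1
    have h2 := h'.1
    field_simp
  rw [this, map_one]

theorem valueVec_change (p : EvalPt k K) (s : ι → K) (i i' : ι) (h : GenAt p s i)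
    (h' : GenAt p s i') :
    valueVec p s i h = p.ev ⟨s i' / s i, h.2 i'⟩ • valueVec p s i' h' := by
  funext j
  show p.ev ⟨s j / s i, h.2 j⟩ = p.ev ⟨s i' / s i, h.2 i'⟩ * p.ev ⟨s j / s i', h'.2 j⟩
  rw [← map_mul]
  congr 1
  apply Subtype.ext
  show s j / s i = s i' / s i * (s j / s i')
  have h1 := h.1
  have h2 := h'.1
  field_simp

/-- Scaling the family by a nonzero function changes nothing. -/
theorem genAt_smul_iff (p : EvalPt k K) (s : ι → K) {c : K} (hc : c ≠ 0) (i : ι) :
    GenAt p (fun j => c * s j) i ↔ GenAt p s i := by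
  unfold GenAt
  constructor
  · rintro ⟨h1, h2⟩
    refine ⟨fun h0 => h1 (by simp [h0]), fun j => ?_⟩
    have := h2 j
    rwa [mul_div_mul_left _ _ hc] at this
  · rintro ⟨h1, h2⟩
    refine ⟨mul_ne_zero hc h1, fun j => ?_⟩
    show c * s j / (c * s i) ∈ p.O
    rw [mul_div_mul_left _ _ hc]
    exact h2 j

section Height

variable [CharZero k] [Algebra.IsAlgebraic ℚ k] [Finite ι]

open Classical in
/-- The height of the family `s` at the point `p` (junk value `0` if `s` is not generated by one
of its members at `p`). -/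
noncomputable def famHeight (p : EvalPt k K) (s : ι → K) : ℝ :=
  if h : IsGenAt p s then absLogHeight (valueVec p s h.choose h.choose_spec) else 0

theorem famHeight_eq (p : EvalPt k K) (s : ι → K) (i : ι) (h : GenAt p s i) :
    famHeight p s = absLogHeight (valueVec p s i h) := by
  have hex : IsGenAt p s := ⟨i, h⟩
  unfold famHeight
  rw [dif_pos hex]
  rw [valueVec_change p s hex.choose i hex.choose_spec h]
  refine absLogHeight_smul _ ?_
  intro h0
  have := ev_div_mul_ev_div p s hex.choose i hex.choose_spec h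
  rw [h0, zero_mul] at this
  exact zero_ne_one this

theorem famHeight_nonneg (p : EvalPt k K) (s : ι → K) : 0 ≤ famHeight p s := by
  unfold famHeight
  split_ifs
  · exact absLogHeight_nonneg _
  · exact le_rfl

theorem famHeight_smul (p : EvalPt k K) (s : ι → K) {c : K} (hc : c ≠ 0) :
    famHeight p (fun j => c * s j) = famHeight p s := by
  by_cases hg : IsGenAt p s
  · obtain ⟨i, hi⟩ := hg
    have hi' : GenAt p (fun j => c * s j) i := (genAt_smul_iff p s hc i).mpr hi
    rw [famHeight_eq p s i hi, famHeight_eq p _ i hi']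
    congr 1
    funext j
    show p.ev ⟨c * s j / (c * s i), hi'.2 j⟩ = p.ev ⟨s j / s i, hi.2 j⟩
    congr 1
    apply Subtype.ext
    exact mul_div_mul_left _ _ hc
  · have hg' : ¬ IsGenAt p (fun j => c * s j) := fun ⟨i, hi⟩ =>
      hg ⟨i, (genAt_smul_iff p s hc i).mp hi⟩
    unfold famHeight
    rw [dif_neg hg, dif_neg hg']

/-- A subfamily which still contains a generator has smaller height. -/
theorem famHeight_comp_le {ι' : Type*} [Finite ι'] (p : EvalPt k K) (s : ι' → K) (f : ι → ι')
    (i : ι) (hi : GenAt p s (f i)) :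
    famHeight p (s ∘ f) ≤ famHeight p s := by
  have hi' : GenAt p (s ∘ f) i := ⟨hi.1, fun j => hi.2 (f j)⟩
  rw [famHeight_eq p s (f i) hi, famHeight_eq p (s ∘ f) i hi']
  exact absLogHeight_comp_le f (valueVec p s (f i) hi)

/-- Reindexing along an equivalence. -/
theorem famHeight_comp_equiv {ι' : Type*} [Finite ι'] (p : EvalPt k K) (s : ι' → K)
    (e : ι ≃ ι') : famHeight p (s ∘ e) = famHeight p s := by
  by_cases hg : IsGenAt p s
  · obtain ⟨i', hi'⟩ := hg
    have h1 : GenAt p s (e (e.symm i')) := by rwa [e.apply_symm_apply]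
    have h2 : GenAt p (s ∘ e) (e.symm i') := ⟨h1.1, fun j => h1.2 (e j)⟩
    rw [famHeight_eq p s _ h1, famHeight_eq p (s ∘ e) _ h2]
    exact absLogHeight_comp_equiv e (valueVec p s _ h1)
  · have hg' : ¬ IsGenAt p (s ∘ e) := fun ⟨i, hi⟩ =>
      hg ⟨e i, hi.1, fun j => by simpa using hi.2 (e.symm j)⟩
    unfold famHeight
    rw [dif_neg hg, dif_neg hg']

end Height

section Pullback

variable {K' : Type*} [Field K'] [Algebra k K']

/-- `p'` (a point of `K'`) lies over `p` (a point of `K`) along the field map `φ : K → K'`. -/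
structure LiesOver (φ : K →ₐ[k] K') (p' : EvalPt k K') (p : EvalPt k K) : Prop where
  map_mem : ∀ a ∈ p.O, φ a ∈ p'.O
  ev_map : ∀ (a : K) (ha : a ∈ p.O), p'.ev ⟨φ a, map_mem a ha⟩ = p.ev ⟨a, ha⟩

theorem LiesOver.genAt {φ : K →ₐ[k] K'} {p' : EvalPt k K'} {p : EvalPt k K}
    (h : LiesOver φ p' p) {s : ι → K} {i : ι} (hi : GenAt p s i) :
    GenAt p' (fun j => φ (s j)) i := by
  refine ⟨fun h0 => hi.1 ((map_eq_zero φ).mp h0), fun j => ?_⟩
  show φ (s j) / φ (s i) ∈ p'.O
  rw [← map_div₀]
  exact h.map_mem _ (hi.2 j)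

/-- Heights are compatible with pull-back: `h_{φ^* s}(p') = h_s(p)` when `p'` lies over `p`. -/
theorem famHeight_pullback [CharZero k] [Algebra.IsAlgebraic ℚ k] [Finite ι]
    {φ : K →ₐ[k] K'} {p' : EvalPt k K'} {p : EvalPt k K}
    (h : LiesOver φ p' p) (s : ι → K) (hs : IsGenAt p s) :
    famHeight p' (fun j => φ (s j)) = famHeight p s := by
  obtain ⟨i, hi⟩ := hs
  have hi' := h.genAt hi
  rw [famHeight_eq p s i hi, famHeight_eq p' _ i hi']
  congr 1
  funext j
  show p'.ev ⟨φ (s j) / φ (s i), hi'.2 j⟩ = p.ev ⟨s j / s i, hi.2 j⟩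
  rw [← h.ev_map _ (hi.2 j)]
  congr 1
  apply Subtype.ext
  exact (map_div₀ φ _ _).symm

end Pullback

end Fermat.Agent.MW.HM73
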