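/-
helper73, programme MW (S17), brick HM-2c: operations on families.
`famHeight_mul` : the height of the product family `(s i * t l)` is the sum of the heights (Segre);
`famHeight_pow` : the height of the family of `n`-th powers `(s i ^ n)` is `n` times the height.
(These correspond to tensor products / powers of the invertible sheaves generated by the families.)
-/
import Fermat.Agent.MW.HM73.Family
import Fermat.Agent.MW.AbsHeightBridge73

set_option autoImplicit false
set_option linter.unusedSectionVars false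

namespace Fermat.Agent.MW.HM73

open Fermat.Agent.MW.AbsHeightDef10

variable {k K : Type*} [Field k] [Field K] [Algebra k K] {ι ι' : Type*}

theorem genAt_mul (p : EvalPt k K) (s : ι → K) (t : ι' → K) (i : ι) (l : ι')
    (hs : GenAt p s i) (ht : GenAt p t l) :
    GenAt p (fun a : ι × ι' => s a.1 * t a.2) (i, l) := by
  refine ⟨mul_ne_zero hs.1 ht.1, fun a => ?_⟩
  show s a.1 * t a.2 / (s i * t l) ∈ p.O
  rw [mul_div_mul_comm]
  exact p.O.mul_mem (hs.2 a.1) (ht.2 a.2)

theorem valueVec_mul (p : EvalPt k K) (s : ι → K) (t : ι' → K) (i : ι) (l : ι')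
    (hs : GenAt p s i) (ht : GenAt p t l) :
    valueVec p (fun a : ι × ι' => s a.1 * t a.2) (i, l) (genAt_mul p s t i l hs ht) =
      fun a : ι × ι' => valueVec p s i hs a.1 * valueVec p t l ht a.2 := by
  funext a
  show p.ev ⟨s a.1 * t a.2 / (s i * t l), _⟩ = p.ev ⟨s a.1 / s i, _⟩ * p.ev ⟨t a.2 / t l, _⟩
  rw [← map_mul]
  congr 1
  exact Subtype.ext (mul_div_mul_comm _ _ _ _)

theorem genAt_pow (p : EvalPt k K) (s : ι → K) (i : ι) (hs : GenAt p s i) (n : ℕ) :
    GenAt p (fun a => s a ^ n) i := by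
  refine ⟨pow_ne_zero n hs.1, fun a => ?_⟩
  show s a ^ n / s i ^ n ∈ p.O
  rw [← div_pow]
  exact p.O.pow_mem (hs.2 a) n

theorem valueVec_pow (p : EvalPt k K) (s : ι → K) (i : ι) (hs : GenAt p s i) (n : ℕ) :
    valueVec p (fun a => s a ^ n) i (genAt_pow p s i hs n) = valueVec p s i hs ^ n := by
  funext a
  show p.ev ⟨s a ^ n / s i ^ n, _⟩ = (p.ev ⟨s a / s i, _⟩) ^ n
  rw [← map_pow]
  congr 1
  exact Subtype.ext (div_pow _ _ _).symm

variable [CharZero k] [Algebra.IsAlgebraic ℚ k] [Finite ι] [Finite ι']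

/-- **Additivity (Segre)**: `h_{s ⊗ t} = h_s + h_t`. -/
theorem famHeight_mul (p : EvalPt k K) (s : ι → K) (t : ι' → K)
    (hs : IsGenAt p s) (ht : IsGenAt p t) :
    famHeight p (fun a : ι × ι' => s a.1 * t a.2) = famHeight p s + famHeight p t := by
  obtain ⟨i, hi⟩ := hs
  obtain ⟨l, hl⟩ := ht
  rw [famHeight_eq p _ (i, l) (genAt_mul p s t i l hi hl), famHeight_eq p s i hi,
    famHeight_eq p t l hl, valueVec_mul]
  exact AbsHeightBridge73.absLogHeight_fun_mul_eq (valueVec_ne_zero p s i hi)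
    (valueVec_ne_zero p t l hl)

/-- **Powers**: `h_{s^n} = n h_s`. -/
theorem famHeight_pow (p : EvalPt k K) (s : ι → K) (hs : IsGenAt p s) (n : ℕ) :
    famHeight p (fun a => s a ^ n) = n * famHeight p s := by
  obtain ⟨i, hi⟩ := hs
  rw [famHeight_eq p _ i (genAt_pow p s i hi n), famHeight_eq p s i hi, valueVec_pow]
  exact AbsHeightBridge73.absLogHeight_pow _ n

end Fermat.Agent.MW.HM73
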