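/-
helper73, programme MW (S17), brick HM-2b: the key lemma KL at the level of families.

* `EvalPt.IsLocal` : the evaluation point is local (`a ∈ O`, `ev a ≠ 0` ⟹ `a⁻¹ ∈ O`).
* `value_relation` : dehomogenised integrality certificates in the function field
  (`(t_l/s_j)^n + ∑ aeval (s_a/s_j) (P j l i) (t_l/s_j)^i = 0`, coefficients in `k`) specialise to
  the same relations for the value vectors at any local evaluation point where `s` is generated by
  one of its members and the `t_l` are sections.
* `AbsKL Ω` : the absolute form of `KL39.logHeight_sumElim_le_of_dehomCert` (a `Prop`; its proof is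
  brick N1 of the MW programme and is supplied as a hypothesis here).
* `famHeight_sumElim_le` / `famHeight_le_of_cert` : the resulting uniform height bounds.
-/
import Fermat.Agent.MW.HM73.Family

set_option autoImplicit false
set_option linter.unusedSectionVars false

namespace Fermat.Agent.MW.HM73

open Fermat.Agent.MW.AbsHeightDef10

variable {k K : Type*} [Field k] [Field K] [Algebra k K] {ι ι' : Type*}

/-- The evaluation point is local: elements of `O` with nonzero value are units of `O`. -/
def EvalPt.IsLocal (p : EvalPt k K) : Prop :=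
  ∀ (a : K) (ha : a ∈ p.O), p.ev ⟨a, ha⟩ ≠ 0 → a⁻¹ ∈ p.O

theorem EvalPt.IsLocal.ev_inv {p : EvalPt k K} (hp : p.IsLocal) (a : K) (ha : a ∈ p.O)
    (h0 : p.ev ⟨a, ha⟩ ≠ 0) : p.ev ⟨a⁻¹, hp a ha h0⟩ = (p.ev ⟨a, ha⟩)⁻¹ := by
  have ha0 : a ≠ 0 := by
    rintro rfl
    apply h0
    have : (⟨0, ha⟩ : p.O) = 0 := rfl
    rw [this, map_zero]
  have h1 : p.ev ⟨a, ha⟩ * p.ev ⟨a⁻¹, hp a ha h0⟩ = 1 := by
    rw [← map_mul]
    have : (⟨a, ha⟩ : p.O) * ⟨a⁻¹, hp a ha h0⟩ = 1 := Subtype.ext (mul_inv_cancel₀ ha0)
    rw [this, map_one]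
  exact eq_inv_of_mul_eq_one_right h1

section Relation

variable (p : EvalPt k K) (hp : p.IsLocal) (s : ι → K) (t : ι' → K) (i0 : ι)
  (h0 : GenAt p s i0) (ht : ∀ l, t l / s i0 ∈ p.O)

/-- The values of the sections `t l`, normalised by the generator `s i0`. -/
def sectionVec : ι' → k := fun l => p.ev ⟨t l / s i0, ht l⟩

include hp in
/-- At a local point, a member of the family with nonzero value is again a generator, the
sections `t l` are still sections with respect to it, and the value vectors are rescaled. -/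
theorem exists_genAt_of_valueVec_ne_zero (j : ι) (hj : valueVec p s i0 h0 j ≠ 0) :
    ∃ (hgj : GenAt p s j) (htj : ∀ l, t l / s j ∈ p.O),
      (∀ a, valueVec p s j hgj a = valueVec p s i0 h0 a / valueVec p s i0 h0 j) ∧
      (∀ l, sectionVec p s t j htj l = sectionVec p s t i0 ht l / valueVec p s i0 h0 j) := by
  have hsj : s j ≠ 0 := by
    intro h
    apply hj
    unfold valueVec
    have : (⟨s j / s i0, h0.2 j⟩ : p.O) = 0 := Subtype.ext (by simp [h])
    rw [this, map_zero]
  have hinv := hp (s j / s i0) (h0.2 j) hj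
  have hev := hp.ev_inv (s j / s i0) (h0.2 j) hj
  have hs0 := h0.1
  have key : ∀ (z : K) (hz : z / s i0 ∈ p.O), ∃ hz' : z / s j ∈ p.O,
      p.ev ⟨z / s j, hz'⟩ = p.ev ⟨z / s i0, hz⟩ / valueVec p s i0 h0 j := by
    intro z hz
    have e1 : z / s j = z / s i0 * (s j / s i0)⁻¹ := by field_simp
    have hz' : z / s j ∈ p.O := by rw [e1]; exact p.O.mul_mem hz hinv
    refine ⟨hz', ?_⟩
    have : (⟨z / s j, hz'⟩ : p.O) = ⟨z / s i0, hz⟩ * ⟨(s j / s i0)⁻¹, hinv⟩ := Subtype.ext e1
    rw [this, map_mul, hev]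
    exact (div_eq_mul_inv _ _).symm
  refine ⟨⟨hsj, fun a => (key (s a) (h0.2 a)).choose⟩, fun l => (key (t l) (ht l)).choose, ?_, ?_⟩
  · intro a
    exact (key (s a) (h0.2 a)).choose_spec
  · intro l
    exact (key (t l) (ht l)).choose_spec

include hp in
/-- **Specialisation of integrality certificates.** A dehomogenised monic relation for
`t l / s j` over `k[s a / s j]` in the function field gives the same relation for the values. -/
theorem value_relation (n : ℕ) (P : Fin n → MvPolynomial ι k) (j : ι) (l : ι')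
    (hj : valueVec p s i0 h0 j ≠ 0)
    (hrel : (t l / s j) ^ n + ∑ i : Fin n,
      MvPolynomial.aeval (fun a => s a / s j) (P i) * (t l / s j) ^ (i : ℕ) = 0) :
    (sectionVec p s t i0 ht l / valueVec p s i0 h0 j) ^ n +
      ∑ i : Fin n, (P i).eval (fun a => valueVec p s i0 h0 a / valueVec p s i0 h0 j) *
        (sectionVec p s t i0 ht l / valueVec p s i0 h0 j) ^ (i : ℕ) = 0 := by
  obtain ⟨hgj, htj, hv, hsv⟩ := exists_genAt_of_valueVec_ne_zero p hp s t i0 h0 ht j hj
  let w : ι → p.O := fun a => ⟨s a / s j, hgj.2 a⟩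
  let z : p.O := ⟨t l / s j, htj l⟩
  have hO : z ^ n + ∑ i : Fin n, MvPolynomial.aeval w (P i) * z ^ (i : ℕ) = 0 := by
    apply Subtype.ext
    have hval : ∀ q : MvPolynomial ι k, ((MvPolynomial.aeval w q : p.O) : K) =
        MvPolynomial.aeval (fun a => s a / s j) q := by
      intro q
      exact MvPolynomial.comp_aeval_apply (f := w) p.O.val q
    have : ((z ^ n + ∑ i : Fin n, MvPolynomial.aeval w (P i) * z ^ (i : ℕ) : p.O) : K) =
        (t l / s j) ^ n + ∑ i : Fin n,
          MvPolynomial.aeval (fun a => s a / s j) (P i) * (t l / s j) ^ (i : ℕ) := by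
      push_cast
      simp only [hval]
      rfl
    rw [this, hrel]
    rfl
  have hev := congrArg p.ev hO
  rw [map_zero, map_add, map_pow, map_sum] at hev
  have hz : p.ev z = sectionVec p s t i0 ht l / valueVec p s i0 h0 j := hsv l
  have hw : ∀ q : MvPolynomial ι k, p.ev (MvPolynomial.aeval w q) =
      q.eval (fun a => valueVec p s i0 h0 a / valueVec p s i0 h0 j) := by
    intro q
    rw [MvPolynomial.comp_aeval_apply]
    have : (fun i => p.ev (w i)) = fun a => valueVec p s i0 h0 a / valueVec p s i0 h0 j := by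
      funext a; exact hv a
    rw [this]
    rfl
  simp only [map_mul, map_pow, hw, hz] at hev
  exact hev

end Relation

section KL

variable [CharZero k] [Algebra.IsAlgebraic ℚ k] [Finite ι] [Finite ι']

/-- **The absolute key lemma for a fixed system of dehomogenised certificates** `(n, P)`:
whenever value vectors `σ ≠ 0`, `τ` over `k` satisfy all the monic relations, the height of
`(σ, τ)` exceeds that of `σ` by at most `C`.  Brick N1 (absolute form of
`KL39.logHeight_sumElim_le_of_dehomCert`) proves `AbsKLFor n P (log R + absLogHeight c)`. -/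
def AbsKLFor (n : ι → ι' → ℕ) (P : ∀ j l, Fin (n j l) → MvPolynomial ι k) (C : ℝ) : Prop :=
  ∀ (σ : ι → k) (τ : ι' → k), σ ≠ 0 →
    (∀ j l, σ j ≠ 0 → (τ l / σ j) ^ n j l +
      ∑ i : Fin (n j l), (P j l i).eval (fun a => σ a / σ j) * (τ l / σ j) ^ (i : ℕ) = 0) →
    absLogHeight (Sum.elim σ τ) ≤ C + absLogHeight σ

/-- The certificates hold in the function field. -/
def HasCert (s : ι → K) (t : ι' → K) (n : ι → ι' → ℕ)
    (P : ∀ j l, Fin (n j l) → MvPolynomial ι k) : Prop :=
  ∀ j l, s j ≠ 0 → (t l / s j) ^ n j l + ∑ i : Fin (n j l),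
    MvPolynomial.aeval (fun a => s a / s j) (P j l i) * (t l / s j) ^ (i : ℕ) = 0

theorem genAt_sumElim_inl (p : EvalPt k K) (s : ι → K) (t : ι' → K) (i0 : ι)
    (h0 : GenAt p s i0) (ht : ∀ l, t l / s i0 ∈ p.O) :
    GenAt p (Sum.elim s t) (Sum.inl i0) :=
  ⟨h0.1, fun j => by
    cases j with
    | inl a => exact h0.2 a
    | inr l => exact ht l⟩

theorem valueVec_sumElim_inl (p : EvalPt k K) (s : ι → K) (t : ι' → K) (i0 : ι)
    (h0 : GenAt p s i0) (ht : ∀ l, t l / s i0 ∈ p.O) :
    valueVec p (Sum.elim s t) (Sum.inl i0) (genAt_sumElim_inl p s t i0 h0 ht) =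
      Sum.elim (valueVec p s i0 h0) (sectionVec p s t i0 ht) := by
  funext j
  cases j with
  | inl a => rfl
  | inr l => rfl

/-- **Key lemma KL for families, one direction**: if the `t l` are sections of the sheaf generated
by `s` at the local point `p`, and the certificates `(n, P)` hold in the function field, then
`h_{(s,t)}(p) ≤ C + h_s(p)` with the constant `C` of the absolute key lemma (uniform in `p`). -/
theorem famHeight_sumElim_le {n : ι → ι' → ℕ} {P : ∀ j l, Fin (n j l) → MvPolynomial ι k} {C : ℝ}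
    (hKL : AbsKLFor n P C) (p : EvalPt k K) (hp : p.IsLocal) (s : ι → K) (t : ι' → K)
    (hcert : HasCert s t n P) (i0 : ι) (h0 : GenAt p s i0) (ht : ∀ l, t l / s i0 ∈ p.O) :
    famHeight p (Sum.elim s t) ≤ C + famHeight p s := by
  rw [famHeight_eq p (Sum.elim s t) (Sum.inl i0) (genAt_sumElim_inl p s t i0 h0 ht),
    famHeight_eq p s i0 h0, valueVec_sumElim_inl]
  refine hKL _ _ (valueVec_ne_zero p s i0 h0) (fun j l hj => ?_)
  have hsj : s j ≠ 0 := by
    intro h
    apply hj
    unfold valueVec
    have : (⟨s j / s i0, h0.2 j⟩ : p.O) = 0 := Subtype.ext (by simp [h])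
    rw [this, map_zero]
  exact value_relation p hp s t i0 h0 ht (n j l) (P j l) j l hj (hcert j l hsj)

/-- **Key lemma KL for families**: bound for the height of the second family alone, when it is
also generated by one of its members at `p`. -/
theorem famHeight_le_of_cert {n : ι → ι' → ℕ} {P : ∀ j l, Fin (n j l) → MvPolynomial ι k} {C : ℝ}
    (hKL : AbsKLFor n P C) (p : EvalPt k K) (hp : p.IsLocal) (s : ι → K) (t : ι' → K)
    (hcert : HasCert s t n P) (i0 : ι) (h0 : GenAt p s i0) (ht : ∀ l, t l / s i0 ∈ p.O)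
    (l0 : ι') (hl0 : GenAt p t l0) (hs : ∀ a, s a / t l0 ∈ p.O) :
    famHeight p t ≤ C + famHeight p s := by
  have h1 : GenAt p (Sum.elim s t) (Sum.inr l0) :=
    ⟨hl0.1, fun j => by
      cases j with
      | inl a => exact hs a
      | inr l => exact hl0.2 l⟩
  have h2 := famHeight_comp_le p (Sum.elim s t) (Sum.inr : ι' → ι ⊕ ι') l0 h1
  rw [Sum.elim_comp_inr] at h2
  exact h2.trans (famHeight_sumElim_le hKL p hp s t hcert i0 h0 ht)

end KL

end Fermat.Agent.MW.HM73
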