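/-
helper73, programme MW (S17), brick HM-1: centres of valuations on universally closed integral
schemes over a field (the only geometric input of the key lemma KL of the height machine,
masterplan report 721).

* `exists_stalk_le_valuationSubring` : for `f : V ⟶ Spec k` universally closed, `V` integral, and
  a valuation subring `W` of the function field `K(V)` containing the image of `k`, there is a
  point `x : V` whose local ring is contained in `W` (existence part of the valuative criterion,
  Mathlib `UniversallyClosed.eq_valuativeCriterion`).
* `div_mem_valuationSubring` : if `t` is a section of the invertible sheaf generated by the family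
  `s` (i.e. at every point `x` some `s i ≠ 0` has `t / s i ∈ O_x`), then `t / s j` lies in every
  valuation subring containing `k` and all `s i / s j`.
* `div_mem_integralClosure` : hence `t / s j` is integral over the subring generated by `k` and
  the `s i / s j` (Mathlib `iInf_valuationSubring_superset`).
-/
import Mathlib.AlgebraicGeometry.ValuativeCriterion
import Mathlib.AlgebraicGeometry.FunctionField

set_option autoImplicit false

universe u

open CategoryTheory AlgebraicGeometry

namespace Fermat.Agent.MW.HM73

variable {k : Type u} [Field k] {V : Scheme.{u}} [IsIntegral V]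
  (f : V ⟶ Spec (CommRingCat.of k))

/-- The structure map `k → K(V)` of an integral scheme over `Spec k`. -/
noncomputable def baseToFunctionField : k →+* V.functionField :=
  (Spec.preimage (V.fromSpecStalk (genericPoint V) ≫ f)).hom

theorem specMap_baseToFunctionField :
    Spec.map (CommRingCat.ofHom (baseToFunctionField f)) =
      V.fromSpecStalk (genericPoint V) ≫ f := by
  unfold baseToFunctionField
  exact Spec.map_preimage _

/-- The local ring of `V` at `x`, as a subring of the function field. -/
noncomputable def stalkSubring (x : V) : Subring V.functionField :=
  (algebraMap (V.presheaf.stalk x) V.functionField).range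

theorem mem_stalkSubring {x : V} {a : V.functionField} :
    a ∈ stalkSubring x ↔ ∃ b : V.presheaf.stalk x,
      algebraMap (V.presheaf.stalk x) V.functionField b = a :=
  Iff.rfl

/-- **Centre of a valuation.** A valuation subring of the function field of a universally closed
integral `k`-scheme which contains `k` contains the local ring of some point. -/
theorem exists_stalk_le_valuationSubring [UniversallyClosed f]
    (W : ValuationSubring V.functionField)
    (hW : ∀ a : k, baseToFunctionField f a ∈ W) :
    ∃ x : V, ∀ a : V.presheaf.stalk x,
      algebraMap (V.presheaf.stalk x) V.functionField a ∈ W := by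
  -- the ring hom `k → W`
  let φ : k →+* W := (baseToFunctionField f).codRestrict W.toSubring hW
  have hφ : (algebraMap W V.functionField).comp φ = baseToFunctionField f := by
    ext a; rfl
  have hex : ValuativeCriterion.Existence f := by
    have h := UniversallyClosed.eq_valuativeCriterion
    have : UniversallyClosed f := inferInstance
    rw [h] at this
    exact this.1
  let S : ValuativeCommSq f :=
    { R := W
      K := V.functionField
      i₁ := V.fromSpecStalk (genericPoint V)
      i₂ := Spec.map (CommRingCat.ofHom φ)
      commSq := ⟨by
        rw [← Spec.map_comp, ← CommRingCat.ofHom_comp, hφ]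
        exact (specMap_baseToFunctionField f).symm⟩ }
  obtain ⟨⟨l⟩⟩ := hex S
  have hl : Spec.map (CommRingCat.ofHom (algebraMap W V.functionField)) ≫ l.l =
      V.fromSpecStalk (genericPoint V) := l.fac_left
  set x : V := l.l (IsLocalRing.closedPoint W) with hx
  refine ⟨x, fun a => ?_⟩
  let ψ : V.presheaf.stalk x ⟶ CommRingCat.of W := Scheme.stalkClosedPointTo l.l
  have hψ : Spec.map ψ ≫ V.fromSpecStalk x = l.l :=
    Scheme.Spec_stalkClosedPointTo_fromSpecStalk l.l
  have hsp : genericPoint V ⤳ x := (genericPoint_spec V).specializes trivial
  have h1 : Spec.map (ψ ≫ CommRingCat.ofHom (algebraMap W V.functionField)) ≫ V.fromSpecStalk x =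
      Spec.map (V.presheaf.stalkSpecializes hsp) ≫ V.fromSpecStalk x := by
    rw [Scheme.SpecMap_stalkSpecializes_fromSpecStalk, Spec.map_comp, Category.assoc, hψ, hl]
  have h2 : ψ ≫ CommRingCat.ofHom (algebraMap W V.functionField) =
      V.presheaf.stalkSpecializes hsp := by
    have := (cancel_mono (V.fromSpecStalk x)).mp h1
    exact Spec.map_injective this
  have h3 : algebraMap (V.presheaf.stalk x) V.functionField a =
      (V.presheaf.stalkSpecializes hsp).hom a := rfl
  rw [h3, ← h2]
  exact (ψ.hom a).2

/-- The same with the local ring as a subring of the function field. -/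
theorem exists_stalkSubring_le_valuationSubring [UniversallyClosed f]
    (W : ValuationSubring V.functionField)
    (hW : ∀ a : k, baseToFunctionField f a ∈ W) :
    ∃ x : V, stalkSubring x ≤ W.toSubring := by
  obtain ⟨x, hx⟩ := exists_stalk_le_valuationSubring f W hW
  refine ⟨x, ?_⟩
  rintro _ ⟨b, rfl⟩
  exact hx b

variable {ι : Type*}

/-- **Geometric half of the key lemma.** If `t` is a global section of the invertible subsheaf of
`K(V)` generated by the family `s`, then `t / s j` lies in every valuation subring of `K(V)`
containing `k` and all the `s i / s j`. -/
theorem div_mem_valuationSubring [UniversallyClosed f] (s : ι → V.functionField)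
    (t : V.functionField)
    (hts : ∀ x : V, ∃ i, s i ≠ 0 ∧ t / s i ∈ stalkSubring x)
    (W : ValuationSubring V.functionField)
    (hk : ∀ a : k, baseToFunctionField f a ∈ W) (j : ι)
    (hW : ∀ i, s i / s j ∈ W) : t / s j ∈ W := by
  obtain ⟨x, hx⟩ := exists_stalkSubring_le_valuationSubring f W hk
  obtain ⟨i, hi, hti⟩ := hts x
  have h1 : t / s i ∈ W := hx hti
  have h2 : t / s j = t / s i * (s i / s j) := by
    field_simp
  rw [h2]
  exact W.mul_mem _ _ h1 (hW i)

/-- **Integrality form of the key lemma.** -/
theorem div_mem_integralClosure [UniversallyClosed f] (s : ι → V.functionField)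
    (t : V.functionField)
    (hts : ∀ x : V, ∃ i, s i ≠ 0 ∧ t / s i ∈ stalkSubring x) (j : ι) :
    t / s j ∈ integralClosure
      (Subring.closure (Set.range (baseToFunctionField f) ∪ Set.range fun i => s i / s j))
      V.functionField := by
  have h := iInf_valuationSubring_superset (K := V.functionField)
    (s := Set.range (baseToFunctionField f) ∪ Set.range fun i => s i / s j)
  have hmem : t / s j ∈ (⨅ W : {W : ValuationSubring V.functionField //
      (Set.range (baseToFunctionField f) ∪ Set.range fun i => s i / s j) ⊆ W.toSubring},
      W.1.toSubring) := by
    rw [Subring.mem_iInf]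
    rintro ⟨W, hWs⟩
    refine div_mem_valuationSubring f s t hts W (fun a => hWs (Or.inl ⟨a, rfl⟩)) j
      (fun i => hWs (Or.inr ⟨i, rfl⟩))
  rw [h] at hmem
  exact hmem

end Fermat.Agent.MW.HM73
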