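/-
helper73, programme MW (S17), brick HM-3: the evaluation point (`HM73.EvalPt`) attached to a
`k`-point of an integral `k`-scheme `V`: local ring inside the function field + evaluation.
-/
import Fermat.Agent.MW.HM73.Centre
import Fermat.Agent.MW.HM73.Family

set_option autoImplicit false

universe u

open CategoryTheory AlgebraicGeometry

namespace Fermat.Agent.MW.HM73

variable {k : Type u} [Field k] {V : Scheme.{u}} [IsIntegral V]
  (f : V ⟶ Spec (CommRingCat.of k))

/-- The structure map `k → O_{V,x}`. -/
noncomputable def baseToStalk (x : V) : k →+* V.presheaf.stalk x :=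
  (Spec.preimage (V.fromSpecStalk x ≫ f)).hom

theorem specMap_baseToStalk (x : V) :
    Spec.map (CommRingCat.ofHom (baseToStalk f x)) = V.fromSpecStalk x ≫ f := by
  unfold baseToStalk
  exact Spec.map_preimage _

theorem algebraMap_baseToStalk (x : V) (a : k) :
    algebraMap (V.presheaf.stalk x) V.functionField (baseToStalk f x a) =
      baseToFunctionField f a := by
  have hsp : genericPoint V ⤳ x := (genericPoint_spec V).specializes trivial
  have h : CommRingCat.ofHom (baseToStalk f x) ≫ V.presheaf.stalkSpecializes hsp =
      CommRingCat.ofHom (baseToFunctionField f) := by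
    apply Spec.map_injective
    rw [Spec.map_comp, specMap_baseToStalk, specMap_baseToFunctionField,
      Scheme.SpecMap_stalkSpecializes_fromSpecStalk_assoc]
  have := congrArg (fun g => g.hom a) h
  exact this

theorem baseToFunctionField_mem_stalkSubring (x : V) (a : k) :
    baseToFunctionField f a ∈ stalkSubring x :=
  ⟨baseToStalk f x a, algebraMap_baseToStalk f x a⟩

/-- The function field as a `k`-algebra (not an instance: activate with `letI`). -/
@[reducible] noncomputable def ffAlgebra : Algebra k V.functionField :=
  (baseToFunctionField f).toAlgebra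

/-- The local ring at `x` is isomorphic to its image in the function field. -/
noncomputable def stalkEquivSubring (x : V) : V.presheaf.stalk x ≃+* stalkSubring x :=
  RingEquiv.ofBijective (algebraMap (V.presheaf.stalk x) V.functionField).rangeRestrict
    ⟨fun _ _ h => IsFractionRing.injective (V.presheaf.stalk x) V.functionField
        (congrArg Subtype.val h),
      (algebraMap (V.presheaf.stalk x) V.functionField).rangeRestrict_surjective⟩

theorem coe_stalkEquivSubring (x : V) (b : V.presheaf.stalk x) :
    ((stalkEquivSubring x b : stalkSubring x) : V.functionField) =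
      algebraMap (V.presheaf.stalk x) V.functionField b := rfl

variable (σ : Spec (CommRingCat.of k) ⟶ V) (hσ : σ ≫ f = 𝟙 _)

/-- The point of `V` underlying a `k`-point. -/
noncomputable def sectionPt : V := σ (IsLocalRing.closedPoint k)

/-- Evaluation of germs at a `k`-point. -/
noncomputable def sectionEv : V.presheaf.stalk (sectionPt σ) →+* k :=
  (Scheme.stalkClosedPointTo σ).hom

include hσ in
theorem sectionEv_baseToStalk (a : k) : sectionEv σ (baseToStalk f (sectionPt σ) a) = a := by
  have h : CommRingCat.ofHom (baseToStalk f (sectionPt σ)) ≫ Scheme.stalkClosedPointTo σ =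
      𝟙 (CommRingCat.of k) := by
    apply Spec.map_injective
    rw [Spec.map_comp, specMap_baseToStalk]
    have := Scheme.Spec_stalkClosedPointTo_fromSpecStalk σ
    rw [← Category.assoc]
    erw [this]
    rw [hσ, Spec.map_id]
  have := congrArg (fun g => g.hom a) h
  exact this

/-- **The evaluation point attached to a `k`-point** `σ : Spec k ⟶ V` (a section of `f`). -/
noncomputable def evalPtOfSection :
    @EvalPt k V.functionField _ _ (ffAlgebra f) :=
  letI := ffAlgebra f
  { O :=
      { (stalkSubring (sectionPt σ)).toSubsemiring with
        algebraMap_mem' := fun a => baseToFunctionField_mem_stalkSubring f (sectionPt σ) a }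
    ev :=
      { toFun := fun a => sectionEv σ ((stalkEquivSubring (sectionPt σ)).symm ⟨a.1, a.2⟩)
        map_one' := by
          have : (⟨((1 : _) : V.functionField), (stalkSubring (sectionPt σ)).one_mem⟩ :
              stalkSubring (sectionPt σ)) = 1 := rfl
          show sectionEv σ ((stalkEquivSubring (sectionPt σ)).symm ⟨1, _⟩) = 1
          rw [this, map_one, map_one]
        map_mul' := fun a b => by
          show sectionEv σ ((stalkEquivSubring (sectionPt σ)).symm ⟨a.1 * b.1, _⟩) = _
          have : (⟨a.1 * b.1, (stalkSubring (sectionPt σ)).mul_mem a.2 b.2⟩ :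
              stalkSubring (sectionPt σ)) = ⟨a.1, a.2⟩ * ⟨b.1, b.2⟩ := rfl
          rw [this, map_mul, map_mul]
        map_zero' := by
          have : (⟨((0 : _) : V.functionField), (stalkSubring (sectionPt σ)).zero_mem⟩ :
              stalkSubring (sectionPt σ)) = 0 := rfl
          show sectionEv σ ((stalkEquivSubring (sectionPt σ)).symm ⟨0, _⟩) = 0
          rw [this, map_zero, map_zero]
        map_add' := fun a b => by
          show sectionEv σ ((stalkEquivSubring (sectionPt σ)).symm ⟨a.1 + b.1, _⟩) = _
          have : (⟨a.1 + b.1, (stalkSubring (sectionPt σ)).add_mem a.2 b.2⟩ :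
              stalkSubring (sectionPt σ)) = ⟨a.1, a.2⟩ + ⟨b.1, b.2⟩ := rfl
          rw [this, map_add, map_add]
        commutes' := fun a => by
          show sectionEv σ ((stalkEquivSubring (sectionPt σ)).symm
            ⟨baseToFunctionField f a, _⟩) = a
          have : (⟨baseToFunctionField f a,
              baseToFunctionField_mem_stalkSubring f (sectionPt σ) a⟩ :
              stalkSubring (sectionPt σ)) =
              stalkEquivSubring (sectionPt σ) (baseToStalk f (sectionPt σ) a) :=
            Subtype.ext (algebraMap_baseToStalk f (sectionPt σ) a).symm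
          rw [this, RingEquiv.symm_apply_apply]
          exact sectionEv_baseToStalk f σ hσ a } }

theorem mem_evalPtOfSection_O (a : V.functionField) :
    letI := ffAlgebra f
    a ∈ (evalPtOfSection f σ hσ).O ↔ a ∈ stalkSubring (sectionPt σ) := Iff.rfl

theorem evalPtOfSection_ev_algebraMap (b : V.presheaf.stalk (sectionPt σ)) :
    letI := ffAlgebra f
    (evalPtOfSection f σ hσ).ev
      ⟨algebraMap (V.presheaf.stalk (sectionPt σ)) V.functionField b, ⟨b, rfl⟩⟩ =
      sectionEv σ b := by
  show sectionEv σ ((stalkEquivSubring (sectionPt σ)).symm
    ⟨algebraMap (V.presheaf.stalk (sectionPt σ)) V.functionField b, _⟩) = sectionEv σ b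
  have : (⟨algebraMap (V.presheaf.stalk (sectionPt σ)) V.functionField b, ⟨b, rfl⟩⟩ :
      stalkSubring (sectionPt σ)) = stalkEquivSubring (sectionPt σ) b := rfl
  rw [this, RingEquiv.symm_apply_apply]

end Fermat.Agent.MW.HM73
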