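/-
helper73, programme MW (S17), brick HM-3c: the evaluation point of a `k`-point of an integral
`k`-scheme is local (`EvalPt.IsLocal`).
-/
import Fermat.Agent.MW.HM73.Points
import Fermat.Agent.MW.HM73.KLFamily

set_option autoImplicit false
set_option linter.unusedSectionVars false
set_option linter.style.haveILetI false

universe u

open CategoryTheory AlgebraicGeometry

namespace Fermat.Agent.MW.HM73

variable {k : Type u} [Field k] {V : Scheme.{u}} [IsIntegral V]
  (f : V ⟶ Spec (CommRingCat.of k))
  (σ : Spec (CommRingCat.of k) ⟶ V) (hσ : σ ≫ f = 𝟙 _)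

theorem isUnit_of_sectionEv_ne_zero (b : V.presheaf.stalk (sectionPt σ))
    (hb : sectionEv σ b ≠ 0) : IsUnit b := by
  have hloc : IsLocalHom (Scheme.stalkClosedPointTo σ).hom := inferInstance
  exact hloc.map_nonunit b (isUnit_iff_ne_zero.mpr hb)

/-- The evaluation point of a `k`-point is local. -/
theorem isLocal_evalPtOfSection :
    letI := ffAlgebra f
    (evalPtOfSection f σ hσ).IsLocal := by
  letI := ffAlgebra f
  rintro _ ⟨b, rfl⟩ hb
  rw [evalPtOfSection_ev_algebraMap f σ hσ b] at hb
  obtain ⟨u, rfl⟩ := isUnit_of_sectionEv_ne_zero σ b hb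
  refine ⟨((u⁻¹ : (V.presheaf.stalk (sectionPt σ))ˣ) : V.presheaf.stalk (sectionPt σ)), ?_⟩
  have h1 : algebraMap (V.presheaf.stalk (sectionPt σ)) V.functionField (u : _) *
      algebraMap (V.presheaf.stalk (sectionPt σ)) V.functionField
        ((u⁻¹ : (V.presheaf.stalk (sectionPt σ))ˣ) : V.presheaf.stalk (sectionPt σ)) = 1 := by
    rw [← map_mul, Units.mul_inv, map_one]
  exact (eq_inv_of_mul_eq_one_right h1)

end Fermat.Agent.MW.HM73
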