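/-
helper73, programme MW (S17), brick HM-KL: THE KEY LEMMA KL OF THE HEIGHT MACHINE, geometric form.

`exists_const_abs_famHeight_sub_le` : on a universally closed integral scheme `V` over `Ω`
(`Ω` of characteristic `0`, algebraic over `ℚ`, e.g. `Qbar`), two finite families `s`, `t` of
rational functions generating the same invertible subsheaf of `K(V)` (`SectionsOf s t` and
`SectionsOf t s`) have heights `famHeight` differing by a bounded amount on all `Ω`-points.

Proof = `HM73.div_mem_integralClosure` (centre of a valuation, Mathlib's valuative criterion +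
`iInf_valuationSubring_superset`) composed with helper39's `KL39.exists_const_abs_sub_le`
(integrality certificates, place-by-place estimate, absolute height).  No ampleness, no
projective embedding, no Nullstellensatz.
-/
import Fermat.Agent.MW.KL39.Main
import Fermat.Agent.MW.HM73.PointsLocal

set_option autoImplicit false
set_option linter.unusedSectionVars false
set_option linter.style.haveILetI false

namespace Fermat.Agent.MW.HM73

open Fermat.Agent.MW.AbsHeightDef10

section Abstract

variable {k K : Type*} [Field k] [Field K] [Algebra k K] {ι ι' : Type*}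
  [CharZero k] [Algebra.IsAlgebraic ℚ k] [Finite ι] [Finite ι']

variable (k) in
/-- The conclusion of `KL39.exists_const_abs_sub_le` for a constant `C`. -/
def KLBound (s : ι → K) (t : ι' → K) (C : ℝ) : Prop :=
  ∀ (O : Subring K) (ev : O →+* k) (hφ : ∀ a, algebraMap k K a ∈ O)
    (_hψ : ∀ a, ev ⟨algebraMap k K a, hφ a⟩ = a) (_hloc : ∀ a : O, ev a ≠ 0 → IsUnit a)
    (g : K) (_hg : g ≠ 0) (u : ι → O) (w : ι' → O)
    (_hs : ∀ i, s i = g * u i) (_ht : ∀ l, t l = g * w l),
    (fun i => ev (u i)) ≠ 0 → (fun l => ev (w l)) ≠ 0 →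
    |absLogHeight (fun i => ev (u i)) - absLogHeight (fun l => ev (w l))| ≤ C

theorem exists_KLBound (s : ι → K) (t : ι' → K)
    (hst : ∀ j l, s j ≠ 0 → t l / s j ∈ integralClosure
      (Subring.closure (Set.range (algebraMap k K) ∪ Set.range fun i => s i / s j)) K)
    (hts : ∀ l j, t l ≠ 0 → s j / t l ∈ integralClosure
      (Subring.closure (Set.range (algebraMap k K) ∪ Set.range fun i => t i / t l)) K) :
    ∃ C, KLBound k s t C :=
  KL39.exists_const_abs_sub_le (algebraMap k K) s t hst hts

theorem abs_famHeight_sub_le {s : ι → K} {t : ι' → K} {C : ℝ} (hC : KLBound k s t C)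
    (p : EvalPt k K) (hp : p.IsLocal) (i0 : ι) (l0 : ι') (h0 : GenAt p s i0) (h1 : GenAt p t l0)
    (hts : t l0 / s i0 ∈ p.O) (hst : s i0 / t l0 ∈ p.O) :
    |famHeight p s - famHeight p t| ≤ C := by
  have hs0 := h0.1
  have ht0 := h1.1
  -- the cross ratios are inverse units
  have hunit : p.ev ⟨t l0 / s i0, hts⟩ * p.ev ⟨s i0 / t l0, hst⟩ = 1 := by
    rw [← map_mul]
    have : (⟨t l0 / s i0, hts⟩ : p.O) * ⟨s i0 / t l0, hst⟩ = 1 := by
      apply Subtype.ext
      show t l0 / s i0 * (s i0 / t l0) = 1
      field_simp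
    rw [this, map_one]
  -- sections of `t` relative to the generator `s i0`
  have htl : ∀ l, t l / s i0 ∈ p.O := fun l => by
    have : t l / s i0 = t l / t l0 * (t l0 / s i0) := by field_simp
    rw [this]
    exact p.O.mul_mem (h1.2 l) hts
  let u : ι → p.O.toSubring := fun i => ⟨s i / s i0, h0.2 i⟩
  let w : ι' → p.O.toSubring := fun l => ⟨t l / s i0, htl l⟩
  have key := hC p.O.toSubring (p.ev : p.O →+* k) (fun a => p.O.algebraMap_mem a)
    (fun a => p.ev.commutes a)
    (fun a ha => by
      have hinv := hp a.1 a.2 ha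
      have ha0 : (a : K) ≠ 0 := by
        intro h
        apply ha
        have : a = 0 := Subtype.ext h
        rw [this, map_zero]
      exact ⟨⟨a, ⟨(a : K)⁻¹, hinv⟩, Subtype.ext (mul_inv_cancel₀ ha0),
        Subtype.ext (inv_mul_cancel₀ ha0)⟩, rfl⟩)
    (s i0) hs0 u w
    (fun i => by show s i = s i0 * (s i / s i0); field_simp)
    (fun l => by show t l = s i0 * (t l / s i0); field_simp)
    (valueVec_ne_zero p s i0 h0)
    (fun h => by
      have := congrFun h l0
      simp only [Pi.zero_apply] at this
      have h2 : p.ev ⟨t l0 / s i0, hts⟩ = 0 := this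
      rw [h2, zero_mul] at hunit
      exact zero_ne_one hunit)
  have e1 : famHeight p s = absLogHeight (fun i => (p.ev : p.O →+* k) (u i)) :=
    famHeight_eq p s i0 h0
  have e2 : famHeight p t = absLogHeight (fun l => (p.ev : p.O →+* k) (w l)) := by
    rw [famHeight_eq p t l0 h1]
    have : valueVec p t l0 h1 =
        p.ev ⟨s i0 / t l0, hst⟩ • (fun l => (p.ev : p.O →+* k) (w l)) := by
      funext l
      show p.ev ⟨t l / t l0, h1.2 l⟩ = p.ev ⟨s i0 / t l0, hst⟩ * p.ev ⟨t l / s i0, htl l⟩
      rw [← map_mul]
      congr 1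
      apply Subtype.ext
      show t l / t l0 = s i0 / t l0 * (t l / s i0)
      field_simp
    rw [this]
    refine absLogHeight_smul _ ?_
    intro h
    rw [h, mul_zero] at hunit
    exact zero_ne_one hunit
  rw [e1, e2]
  exact key

end Abstract

section Geometric

universe u

open CategoryTheory AlgebraicGeometry

variable {Ω : Type u} [Field Ω] [CharZero Ω] [Algebra.IsAlgebraic ℚ Ω]
  {V : Scheme.{u}} [IsIntegral V] (f : V ⟶ Spec (CommRingCat.of Ω))
  {ι ι' : Type*} [Finite ι] [Finite ι']

/-- The members of `t` are global sections of the invertible subsheaf of `K(V)` generated by the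
family `s`: at every point `x` some `s i ≠ 0` divides all `t l` in `O_x`. -/
def SectionsOf (s : ι → V.functionField) (t : ι' → V.functionField) : Prop :=
  ∀ x : V, ∃ i, s i ≠ 0 ∧ ∀ l, t l / s i ∈ stalkSubring x

/-- **KEY LEMMA KL, geometric form.** On a universally closed integral scheme `V` over
`Ω = Qbar`, two finite families of rational functions generating the same invertible subsheaf of
`K(V)` have heights differing by a bounded amount on the `Ω`-points of `V`. -/
theorem exists_const_abs_famHeight_sub_le [UniversallyClosed f]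
    (s : ι → V.functionField) (t : ι' → V.functionField)
    (hst : SectionsOf s t) (hts : SectionsOf t s) :
    ∃ C : ℝ, ∀ (σ : Spec (CommRingCat.of Ω) ⟶ V) (hσ : σ ≫ f = 𝟙 _),
      letI := ffAlgebra f
      |famHeight (evalPtOfSection f σ hσ) s - famHeight (evalPtOfSection f σ hσ) t| ≤ C := by
  letI := ffAlgebra f
  have h1 : ∀ j l, s j ≠ 0 → t l / s j ∈ integralClosure
      (Subring.closure (Set.range (algebraMap Ω V.functionField) ∪
        Set.range fun i => s i / s j)) V.functionField := fun j l _ =>
    div_mem_integralClosure f s (t l)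
      (fun x => by obtain ⟨i, hi, h⟩ := hst x; exact ⟨i, hi, h l⟩) j
  have h2 : ∀ l j, t l ≠ 0 → s j / t l ∈ integralClosure
      (Subring.closure (Set.range (algebraMap Ω V.functionField) ∪
        Set.range fun i => t i / t l)) V.functionField := fun l j _ =>
    div_mem_integralClosure f t (s j)
      (fun x => by obtain ⟨i, hi, h⟩ := hts x; exact ⟨i, hi, h j⟩) l
  obtain ⟨C, hC⟩ := exists_KLBound (k := Ω) s t h1 h2
  refine ⟨C, fun σ hσ => ?_⟩
  obtain ⟨i0, hi0, hA⟩ := hst (sectionPt σ)
  obtain ⟨l0, hl0, hB⟩ := hts (sectionPt σ)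
  have hO : ∀ a, a ∈ (evalPtOfSection f σ hσ).O ↔ a ∈ stalkSubring (sectionPt σ) :=
    fun a => Iff.rfl
  have g0 : GenAt (evalPtOfSection f σ hσ) s i0 := ⟨hi0, fun j => by
    rw [hO]
    have : s j / s i0 = s j / t l0 * (t l0 / s i0) := by field_simp
    rw [this]
    exact (stalkSubring (sectionPt σ)).mul_mem (hB j) (hA l0)⟩
  have g1 : GenAt (evalPtOfSection f σ hσ) t l0 := ⟨hl0, fun l => by
    rw [hO]
    have : t l / t l0 = t l / s i0 * (s i0 / t l0) := by field_simp
    rw [this]
    exact (stalkSubring (sectionPt σ)).mul_mem (hA l) (hB i0)⟩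
  exact abs_famHeight_sub_le hC (evalPtOfSection f σ hσ) (isLocal_evalPtOfSection f σ hσ)
    i0 l0 g0 g1 ((hO _).mpr (hA l0)) ((hO _).mpr (hB i0))

end Geometric

end Fermat.Agent.MW.HM73
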