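/-
helper73, programme MW (S17), brick HM-3b: pull-back of heights along a dominant morphism
`g : V' ⟶ V` of integral `k`-schemes: the map of function fields `ffMap`, the evaluation point of a
`k`-point `σ'` of `V'` lies over the evaluation point of `σ' ≫ g`, hence
`h_{g^* s}(σ') = h_s(σ' ≫ g)` (`famHeight_comp`).  Used for `g = t_a, [-1], [2]` on the Jacobian.
-/
import Fermat.Agent.MW.HM73.Points

set_option autoImplicit false
set_option linter.unusedSectionVars false
set_option linter.style.haveILetI false

universe u

open CategoryTheory AlgebraicGeometry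

namespace Fermat.Agent.MW.HM73

variable {k : Type u} [Field k] {V V' : Scheme.{u}} [IsIntegral V] [IsIntegral V']
  (f : V ⟶ Spec (CommRingCat.of k)) (f' : V' ⟶ Spec (CommRingCat.of k))
  (g : V' ⟶ V) (hg : g ≫ f = f') (hdom : g (genericPoint V') = genericPoint V)

/-- The map of function fields induced by a dominant morphism of integral schemes. -/
noncomputable def ffMap : V.functionField →+* V'.functionField :=
  (V.presheaf.stalkSpecializes (specializes_of_eq hdom) ≫ g.stalkMap (genericPoint V')).hom

theorem specMap_ffMap :
    Spec.map (CommRingCat.ofHom (ffMap g hdom)) ≫ V.fromSpecStalk (genericPoint V) =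
      V'.fromSpecStalk (genericPoint V') ≫ g := by
  unfold ffMap
  rw [CommRingCat.ofHom_hom, Spec.map_comp, Category.assoc,
    Scheme.SpecMap_stalkSpecializes_fromSpecStalk, Scheme.SpecMap_stalkMap_fromSpecStalk]

include hg in
theorem ffMap_baseToFunctionField (a : k) :
    ffMap g hdom (baseToFunctionField f a) = baseToFunctionField f' a := by
  have h : CommRingCat.ofHom (baseToFunctionField f) ≫ CommRingCat.ofHom (ffMap g hdom) =
      CommRingCat.ofHom (baseToFunctionField f') := by
    apply Spec.map_injective
    rw [Spec.map_comp, specMap_baseToFunctionField, specMap_baseToFunctionField,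
      ← Category.assoc, specMap_ffMap, Category.assoc, hg]
  have := congrArg (fun g => g.hom a) h
  exact this

theorem ffMap_algebraMap (x' : V') (b : V.presheaf.stalk (g x')) :
    ffMap g hdom (algebraMap (V.presheaf.stalk (g x')) V.functionField b) =
      algebraMap (V'.presheaf.stalk x') V'.functionField (g.stalkMap x' b) := by
  have hsp' : genericPoint V' ⤳ x' := (genericPoint_spec V').specializes trivial
  have hsp : genericPoint V ⤳ g x' := (genericPoint_spec V).specializes trivial
  have h1 : algebraMap (V'.presheaf.stalk x') V'.functionField (g.stalkMap x' b) =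
      V'.presheaf.stalkSpecializes hsp' (g.stalkMap x' b) := rfl
  have h2 : algebraMap (V.presheaf.stalk (g x')) V.functionField b =
      V.presheaf.stalkSpecializes hsp b := rfl
  rw [h1, h2, ← Scheme.Hom.stalkSpecializes_stalkMap_apply g _ _ hsp' b]
  unfold ffMap
  show g.stalkMap (genericPoint V') (V.presheaf.stalkSpecializes (specializes_of_eq hdom)
    (V.presheaf.stalkSpecializes hsp b)) = _
  congr 1
  have := TopCat.Presheaf.stalkSpecializes_comp V.presheaf (specializes_of_eq hdom) hsp
  have := congrArg (fun g => g.hom b) this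
  exact this

/-- The map of function fields as a `k`-algebra map. -/
noncomputable def ffMapAlg :
    @AlgHom k V.functionField V'.functionField _ _ _ (ffAlgebra f) (ffAlgebra f') :=
  letI := ffAlgebra f
  letI := ffAlgebra f'
  { ffMap g hdom with
    commutes' := fun a => ffMap_baseToFunctionField f f' g hg hdom a }

variable (σ' : Spec (CommRingCat.of k) ⟶ V') (hσ' : σ' ≫ f' = 𝟙 _)

include hg hσ' in
theorem comp_section : (σ' ≫ g) ≫ f = 𝟙 _ := by rw [Category.assoc, hg, hσ']

set_option backward.isDefEq.respectTransparency.types false in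
theorem sectionEv_comp (b : V.presheaf.stalk (g (sectionPt σ'))) :
    sectionEv (σ' ≫ g) b = sectionEv σ' (g.stalkMap (sectionPt σ') b) := by
  unfold sectionEv
  have := Scheme.stalkClosedPointTo_comp σ' g
  have := congrArg (fun g => g.hom b) this
  exact this

/-- **Points lie over their images**: for a dominant `k`-morphism `g : V' ⟶ V` and a `k`-point
`σ'` of `V'`, the evaluation point of `σ'` lies over the evaluation point of `σ' ≫ g`. -/
theorem liesOver_comp :
    letI := ffAlgebra f
    letI := ffAlgebra f'
    LiesOver (ffMapAlg f f' g hg hdom) (evalPtOfSection f' σ' hσ')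
      (evalPtOfSection f (σ' ≫ g) (comp_section f f' g hg σ' hσ')) := by
  letI := ffAlgebra f
  letI := ffAlgebra f'
  have hmem : ∀ a ∈ (evalPtOfSection f (σ' ≫ g) (comp_section f f' g hg σ' hσ')).O,
      ffMapAlg f f' g hg hdom a ∈ (evalPtOfSection f' σ' hσ').O := by
    rintro _ ⟨b, rfl⟩
    exact ⟨g.stalkMap (sectionPt σ') b, (ffMap_algebraMap g hdom (sectionPt σ') b).symm⟩
  refine ⟨hmem, ?_⟩
  rintro _ ⟨b, rfl⟩
  have h1 := evalPtOfSection_ev_algebraMap f (σ' ≫ g) (comp_section f f' g hg σ' hσ') b
  have h2 := evalPtOfSection_ev_algebraMap f' σ' hσ' (g.stalkMap (sectionPt σ') b)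
  have h3 := sectionEv_comp g σ' b
  have h4 := ffMap_algebraMap g hdom (sectionPt σ') b
  rw [h1, h3, ← h2]
  congr 1
  exact Subtype.ext h4


/-- **Functoriality of heights**: `h_{g^* s}(σ') = h_s(g ∘ σ')`. -/
theorem famHeight_comp [CharZero k] [Algebra.IsAlgebraic ℚ k] {ι : Type*} [Finite ι]
    (s : ι → V.functionField) :
    letI := ffAlgebra f
    letI := ffAlgebra f'
    IsGenAt (evalPtOfSection f (σ' ≫ g) (comp_section f f' g hg σ' hσ')) s →
    famHeight (evalPtOfSection f' σ' hσ') (fun j => ffMap g hdom (s j)) =
      famHeight (evalPtOfSection f (σ' ≫ g) (comp_section f f' g hg σ' hσ')) s := by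
  letI := ffAlgebra f
  letI := ffAlgebra f'
  intro hs
  exact famHeight_pullback (liesOver_comp f f' g hg hdom σ' hσ') s hs

end Fermat.Agent.MW.HM73
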