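/-
helper73, programme MW (S17), brick QUAD-abs: the two descent inequalities of the height machine,
in abstract geometric form (the contract with programme AV).

`V` universally closed integral over `Ω = Qbar`; `s` a finite family of rational functions
generating an invertible subsheaf `M` of `K(V)` (`SectionsOf s s`); `hgt f s x` its height at the
`Ω`-point `x`.

* `exists_const_abs_hgt_add_sub_le` (theorem of the SQUARE ⟹ translation inequality):
  for dominant endomorphisms `a, b` of `V` over `Ω` (translations by `±a`) and `φ ≠ 0` such that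
  the families `(a^* s_i · b^* s_j)` and `φ · (s_i s_j)` generate the same sheaf
  (`t_a^* M ⊗ t_{-a}^* M = φ M^2`), `|h(a x) + h(b x) - 2 h(x)| ≤ C`.
* `exists_const_abs_hgt_pow_sub_le` (CUBE up to torsion ⟹ doubling inequality):
  for a dominant endomorphism `g` (`[2]`), `d, m` (`δ`, `4δ`) and `ψ ≠ 0` such that the families
  `((g^* s_i)^d)` and `ψ · (s_i^m)` generate the same sheaf (`([2]^* M)^δ = ψ M^{4δ}`),
  `|d h(g x) - m h(x)| ≤ C`.
Both are instances of the key lemma `HM73.exists_const_abs_famHeight_sub_le`.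
-/
import Fermat.Agent.MW.HM73.KLGeom
import Fermat.Agent.MW.HM73.Pullback
import Fermat.Agent.MW.HM73.FamilyOps

set_option autoImplicit false
set_option linter.unusedSectionVars false
set_option linter.style.haveILetI false

universe u

open CategoryTheory AlgebraicGeometry

namespace Fermat.Agent.MW.HM73

variable {Ω : Type u} [Field Ω] [CharZero Ω] [Algebra.IsAlgebraic ℚ Ω]
  {V : Scheme.{u}} [IsIntegral V] (f : V ⟶ Spec (CommRingCat.of Ω))
  {ι : Type*} [Finite ι]

/-- The `Ω`-points of `V`. -/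
abbrev Pt : Type u := {σ : Spec (CommRingCat.of Ω) ⟶ V // σ ≫ f = 𝟙 _}

/-- The height of the family `s` at the `Ω`-point `x`. -/
noncomputable def hgt (s : ι → V.functionField) (x : Pt f) : ℝ :=
  letI := ffAlgebra f
  famHeight (evalPtOfSection f x.1 x.2) s

theorem hgt_nonneg (s : ι → V.functionField) (x : Pt f) : 0 ≤ hgt f s x := by
  letI := ffAlgebra f
  exact famHeight_nonneg _ _

/-- The action of an endomorphism of `V` over `Ω` on points. -/
noncomputable def ptMap (g : V ⟶ V) (hg : g ≫ f = f) (x : Pt f) : Pt f :=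
  ⟨x.1 ≫ g, comp_section f f g hg x.1 x.2⟩

theorem isGenAt_of_sectionsOf (s : ι → V.functionField) (hs : SectionsOf s s) (x : Pt f) :
    letI := ffAlgebra f
    IsGenAt (evalPtOfSection f x.1 x.2) s := by
  letI := ffAlgebra f
  obtain ⟨i, hi, h⟩ := hs (sectionPt x.1)
  exact ⟨i, hi, h⟩

/-- Functoriality: `h_{g^* s}(x) = h_s(g x)`. -/
theorem hgt_pullback (s : ι → V.functionField) (hs : SectionsOf s s) (g : V ⟶ V)
    (hg : g ≫ f = f) (hdom : g (genericPoint V) = genericPoint V) (x : Pt f) :
    hgt f (fun j => ffMap g hdom (s j)) x = hgt f s (ptMap f g hg x) := by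
  letI := ffAlgebra f
  exact famHeight_comp f f g hg hdom x.1 x.2 s (isGenAt_of_sectionsOf f s hs (ptMap f g hg x))

theorem isGenAt_pullback (s : ι → V.functionField) (hs : SectionsOf s s) (g : V ⟶ V)
    (hg : g ≫ f = f) (hdom : g (genericPoint V) = genericPoint V) (x : Pt f) :
    letI := ffAlgebra f
    IsGenAt (evalPtOfSection f x.1 x.2) (fun j => ffMap g hdom (s j)) := by
  letI := ffAlgebra f
  obtain ⟨i, hi⟩ := isGenAt_of_sectionsOf f s hs (ptMap f g hg x)
  exact ⟨i, (liesOver_comp f f g hg hdom x.1 x.2).genAt hi⟩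

variable [UniversallyClosed f]

/-- **SQUARE ⟹ translation inequality.** -/
theorem exists_const_abs_hgt_add_sub_le (s : ι → V.functionField) (hs : SectionsOf s s)
    (a b : V ⟶ V) (ha : a ≫ f = f) (hb : b ≫ f = f)
    (hda : a (genericPoint V) = genericPoint V) (hdb : b (genericPoint V) = genericPoint V)
    (φ : V.functionField) (hφ : φ ≠ 0)
    (h1 : SectionsOf (fun p : ι × ι => ffMap a hda (s p.1) * ffMap b hdb (s p.2))
      (fun p : ι × ι => φ * (s p.1 * s p.2)))
    (h2 : SectionsOf (fun p : ι × ι => φ * (s p.1 * s p.2))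
      (fun p : ι × ι => ffMap a hda (s p.1) * ffMap b hdb (s p.2))) :
    ∃ C : ℝ, ∀ x : Pt f,
      |hgt f s (ptMap f a ha x) + hgt f s (ptMap f b hb x) - 2 * hgt f s x| ≤ C := by
  letI := ffAlgebra f
  obtain ⟨C, hC⟩ := exists_const_abs_famHeight_sub_le f _ _ h1 h2
  refine ⟨C, fun x => ?_⟩
  have key := hC x.1 x.2
  have e1 : famHeight (evalPtOfSection f x.1 x.2)
      (fun p : ι × ι => ffMap a hda (s p.1) * ffMap b hdb (s p.2)) =
      hgt f s (ptMap f a ha x) + hgt f s (ptMap f b hb x) := by
    rw [famHeight_mul _ _ _ (isGenAt_pullback f s hs a ha hda x)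
      (isGenAt_pullback f s hs b hb hdb x)]
    congr 1
    · exact hgt_pullback f s hs a ha hda x
    · exact hgt_pullback f s hs b hb hdb x
  have e2 : famHeight (evalPtOfSection f x.1 x.2) (fun p : ι × ι => φ * (s p.1 * s p.2)) =
      2 * hgt f s x := by
    rw [famHeight_smul _ (fun p : ι × ι => s p.1 * s p.2) hφ,
      famHeight_mul _ _ _ (isGenAt_of_sectionsOf f s hs x) (isGenAt_of_sectionsOf f s hs x)]
    unfold hgt
    ring
  rw [e1, e2] at key
  exact key

/-- **CUBE up to torsion ⟹ doubling inequality.** -/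
theorem exists_const_abs_hgt_pow_sub_le (s : ι → V.functionField) (hs : SectionsOf s s)
    (g : V ⟶ V) (hg : g ≫ f = f) (hdg : g (genericPoint V) = genericPoint V)
    (d m : ℕ) (ψ : V.functionField) (hψ : ψ ≠ 0)
    (h1 : SectionsOf (fun i : ι => ffMap g hdg (s i) ^ d) (fun i : ι => ψ * s i ^ m))
    (h2 : SectionsOf (fun i : ι => ψ * s i ^ m) (fun i : ι => ffMap g hdg (s i) ^ d)) :
    ∃ C : ℝ, ∀ x : Pt f, |d * hgt f s (ptMap f g hg x) - m * hgt f s x| ≤ C := by
  letI := ffAlgebra f
  obtain ⟨C, hC⟩ := exists_const_abs_famHeight_sub_le f _ _ h1 h2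
  refine ⟨C, fun x => ?_⟩
  have key := hC x.1 x.2
  have e1 : famHeight (evalPtOfSection f x.1 x.2) (fun i : ι => ffMap g hdg (s i) ^ d) =
      d * hgt f s (ptMap f g hg x) := by
    rw [famHeight_pow _ _ (isGenAt_pullback f s hs g hg hdg x)]
    congr 1
    exact hgt_pullback f s hs g hg hdg x
  have e2 : famHeight (evalPtOfSection f x.1 x.2) (fun i : ι => ψ * s i ^ m) =
      m * hgt f s x := by
    rw [famHeight_smul _ (fun i : ι => s i ^ m) hψ,
      famHeight_pow _ _ (isGenAt_of_sectionsOf f s hs x)]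
    rfl
  rw [e1, e2] at key
  exact key

end Fermat.Agent.MW.HM73
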