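/-
helper73, programme MW (S17), brick QUAD-abs (complement): the translation inequality from the
theorem of the SQUARE UP TO TORSION (the form exported by programme AV:
`(t_a^* M ⊗ t_{-a}^* M)^d = φ M^{2d}`).
-/
import Fermat.Agent.MW.HM73.Quad

set_option autoImplicit false
set_option linter.unusedSectionVars false
set_option linter.style.haveILetI false

universe u

open CategoryTheory AlgebraicGeometry

namespace Fermat.Agent.MW.HM73

variable {Ω : Type u} [Field Ω] [CharZero Ω] [Algebra.IsAlgebraic ℚ Ω]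
  {V : Scheme.{u}} [IsIntegral V] (f : V ⟶ Spec (CommRingCat.of Ω))
  {ι : Type*} [Finite ι] [UniversallyClosed f]

/-- **SQUARE up to torsion ⟹ translation inequality.** -/
theorem exists_const_abs_hgt_add_sub_le_pow (s : ι → V.functionField) (hs : SectionsOf s s)
    (a b : V ⟶ V) (ha : a ≫ f = f) (hb : b ≫ f = f)
    (hda : a (genericPoint V) = genericPoint V) (hdb : b (genericPoint V) = genericPoint V)
    (d : ℕ) (φ : V.functionField) (hφ : φ ≠ 0)
    (h1 : SectionsOf (fun p : ι × ι => (ffMap a hda (s p.1) * ffMap b hdb (s p.2)) ^ d)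
      (fun p : ι × ι => φ * (s p.1 * s p.2) ^ d))
    (h2 : SectionsOf (fun p : ι × ι => φ * (s p.1 * s p.2) ^ d)
      (fun p : ι × ι => (ffMap a hda (s p.1) * ffMap b hdb (s p.2)) ^ d)) :
    ∃ C : ℝ, ∀ x : Pt f,
      |d * (hgt f s (ptMap f a ha x) + hgt f s (ptMap f b hb x)) - d * (2 * hgt f s x)| ≤ C := by
  letI := ffAlgebra f
  obtain ⟨C, hC⟩ := exists_const_abs_famHeight_sub_le f _ _ h1 h2
  refine ⟨C, fun x => ?_⟩
  have key := hC x.1 x.2
  have g1 : IsGenAt (evalPtOfSection f x.1 x.2)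
      (fun p : ι × ι => ffMap a hda (s p.1) * ffMap b hdb (s p.2)) := by
    obtain ⟨i, hi⟩ := isGenAt_pullback f s hs a ha hda x
    obtain ⟨l, hl⟩ := isGenAt_pullback f s hs b hb hdb x
    exact ⟨(i, l), genAt_mul _ _ _ i l hi hl⟩
  have g2 : IsGenAt (evalPtOfSection f x.1 x.2) (fun p : ι × ι => s p.1 * s p.2) := by
    obtain ⟨i, hi⟩ := isGenAt_of_sectionsOf f s hs x
    exact ⟨(i, i), genAt_mul _ _ _ i i hi hi⟩
  have e1 : famHeight (evalPtOfSection f x.1 x.2)
      (fun p : ι × ι => (ffMap a hda (s p.1) * ffMap b hdb (s p.2)) ^ d) =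
      d * (hgt f s (ptMap f a ha x) + hgt f s (ptMap f b hb x)) := by
    rw [famHeight_pow _ _ g1, famHeight_mul _ _ _ (isGenAt_pullback f s hs a ha hda x)
      (isGenAt_pullback f s hs b hb hdb x)]
    congr 2
    · exact hgt_pullback f s hs a ha hda x
    · exact hgt_pullback f s hs b hb hdb x
  have e2 : famHeight (evalPtOfSection f x.1 x.2)
      (fun p : ι × ι => φ * (s p.1 * s p.2) ^ d) = d * (2 * hgt f s x) := by
    rw [famHeight_smul _ (fun p : ι × ι => (s p.1 * s p.2) ^ d) hφ, famHeight_pow _ _ g2,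
      famHeight_mul _ _ _ (isGenAt_of_sectionsOf f s hs x) (isGenAt_of_sectionsOf f s hs x)]
    unfold hgt
    ring
  rw [e1, e2] at key
  exact key

end Fermat.Agent.MW.HM73
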